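import Fermat.Agent.S55.G.SIndH237.UctH773.Semilocal

/-!
# S55 / G / G-SIND : leaf SIND-UCT, part 4 (helper773) — the abstract theorem

`uct_abstract` : let `R` be a commutative ring with an action `φ` of a finite group `Γ`, and `J`
a `Γ`-stable ideal with `R` `J`-adically separated and complete, `1 + J ⊆ Rˣ`, `R ⧸ J` finite and
reduced, and such that no non-trivial element of `Γ` acts trivially modulo a maximal ideal
containing `J`.  Then every `1`-cocycle and every `2`-cocycle of `Γ` with values in `Rˣ` is a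
coboundary.
-/

set_option autoImplicit false
set_option linter.style.haveILetI false
set_option linter.unusedSectionVars false

namespace Fermat.Agent.S55.G.SIndH237.UctH773

open Fermat.Agent.S55.G.LocH897

section Quot

variable {Γ R : Type} [Group Γ] [CommRing R] (φ : Γ →* (R ≃+* R)) (J : Ideal R)
  (hJ : ∀ g x, x ∈ J → φ g x ∈ J)

include hJ in
lemma mem_decomp_of_stable (g : Γ) : g ∈ decomp φ J := by
  rw [mem_decomp]
  intro x
  constructor
  · intro h
    have h1 := hJ g⁻¹ _ h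
    rwa [apply_inv_apply φ] at h1
  · exact hJ g x

/-- The induced action on `R ⧸ J`. -/
def quotAct : Γ →* (R ⧸ J ≃+* R ⧸ J) :=
  (resAut φ J).comp
    { toFun := fun g => ⟨g, mem_decomp_of_stable φ J hJ g⟩
      map_one' := rfl
      map_mul' := fun _ _ => rfl }

@[simp] lemma quotAct_mk (g : Γ) (x : R) :
    quotAct φ J hJ g (Ideal.Quotient.mk J x) = Ideal.Quotient.mk J (φ g x) :=
  resAut_mk φ J _ x

/-- Reduction of units modulo `J`. -/
def redU : Rˣ →* (R ⧸ J)ˣ := Units.map ((Ideal.Quotient.mk J : R →+* R ⧸ J) : R →* R ⧸ J)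

@[simp] lemma coe_redU (u : Rˣ) : ((redU J u : (R ⧸ J)ˣ) : R ⧸ J) = Ideal.Quotient.mk J (u : R) :=
  rfl

lemma redU_uAct (g : Γ) (u : Rˣ) :
    redU J (uAct φ g u) = uAct (quotAct φ J hJ) g (redU J u) := by
  apply Units.ext
  rw [coe_redU, coe_uAct, coe_uAct, coe_redU, quotAct_mk]

lemma mem_filU_one_of_redU {u : Rˣ} (h : redU J u = 1) : u ∈ filU J 1 := by
  rw [mem_filU, pow_one]
  apply Ideal.Quotient.eq.1
  have := congrArg (fun v : (R ⧸ J)ˣ => (v : R ⧸ J)) h
  simpa using this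

lemma exists_unit_lift (hunit : ∀ x ∈ J, IsUnit (1 + x)) (v : (R ⧸ J)ˣ) :
    ∃ u : Rˣ, redU J u = v := by
  obtain ⟨a, ha⟩ := Ideal.Quotient.mk_surjective (v : R ⧸ J)
  obtain ⟨a', ha'⟩ := Ideal.Quotient.mk_surjective ((v⁻¹ : (R ⧸ J)ˣ) : R ⧸ J)
  have h1 : a * a' - 1 ∈ J := by
    apply Ideal.Quotient.eq.1
    rw [map_mul, ha, ha', map_one, Units.mul_inv]
  have h2 : IsUnit (a * a') := by
    have := hunit _ h1
    rwa [add_sub_cancel] at this
  obtain ⟨u, hu⟩ := isUnit_of_mul_isUnit_left h2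
  refine ⟨u, Units.ext ?_⟩
  rw [coe_redU, hu, ha]

end Quot

section Main

variable {Γ R : Type} [Group Γ] [Fintype Γ] [CommRing R] (φ : Γ →* (R ≃+* R)) (J : Ideal R)

/-- **Cohomological triviality of the units of a complete semi-local ring with an unramified
action of a finite group**, degrees `1` and `2`, in cocycle form. -/
theorem uct_abstract (hJ : ∀ g x, x ∈ J → φ g x ∈ J)
    (hsep : ∀ x, (∀ j, x ∈ J ^ j) → x = 0)
    (hcomp : ∀ f : ℕ → R, (∀ j, f (j + 1) - f j ∈ J ^ j) → ∃ s, ∀ j, s - f j ∈ J ^ j)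
    (hunit : ∀ x ∈ J, IsUnit (1 + x))
    (hfin : Finite (R ⧸ J)) (hred : IsReduced (R ⧸ J))
    (hunr : ∀ 𝔪 : Ideal R, 𝔪.IsMaximal → J ≤ 𝔪 → ∀ s : Γ, (∀ x, φ s x - x ∈ 𝔪) → s = 1) :
    (∀ c : Γ → Rˣ, (∀ g h, c (g * h) = uAct φ g (c h) * c g) →
      ∃ m : Rˣ, ∀ g, uAct φ g m / m = c g) ∧
    (∀ c : Γ × Γ → Rˣ,
      (∀ g h k, c (g * h, k) * c (g, h) = uAct φ g (c (h, k)) * c (g, h * k)) →
      ∃ x : Γ → Rˣ, ∀ g h, uAct φ g (x h) / x (g * h) * x g = c (g, h)) := by
  have hU : IsUnr (quotAct φ J hJ) := by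
    intro 𝔪' h𝔪' s hs
    haveI := h𝔪'
    have hmax : (Ideal.comap (Ideal.Quotient.mk J) 𝔪').IsMaximal :=
      Ideal.comap_isMaximal_of_surjective _ Ideal.Quotient.mk_surjective
    refine hunr _ hmax ?_ s fun x => ?_
    · intro x hx
      rw [Ideal.mem_comap, Ideal.Quotient.eq_zero_iff_mem.2 hx]
      exact 𝔪'.zero_mem
    · rw [Ideal.mem_comap, map_sub, ← quotAct_mk φ J hJ]
      exact hs _
  -- the trace-one element
  obtain ⟨b', hb'⟩ := exists_trace_one hU
  obtain ⟨b, rfl⟩ := Ideal.Quotient.mk_surjective b'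
  have hb : ∑ g, φ g b - 1 ∈ J := by
    apply Ideal.Quotient.eq.1
    rw [map_sum, map_one, ← hb']
    exact Finset.sum_congr rfl fun g _ => (quotAct_mk φ J hJ g b).symm
  refine ⟨core_H1 φ J hJ hsep hcomp hunit b hb ?_, core_H2 φ J hJ hsep hcomp hunit b hb ?_⟩
  · intro c hc
    obtain ⟨m', hm'⟩ := semilocal_H1 hU (fun g => redU J (c g)) (fun g h => by
      rw [hc g h, map_mul, redU_uAct φ J hJ])
    obtain ⟨m, rfl⟩ := exists_unit_lift J hunit m'
    refine ⟨m, fun g => mem_filU_one_of_redU J ?_⟩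
    rw [map_div, map_div, redU_uAct φ J hJ, hm' g, div_self']
  · intro c hc
    obtain ⟨x', hx'⟩ := semilocal_H2 hU (fun p => redU J (c p)) (fun g h k => by
      rw [← map_mul, hc g h k, map_mul, redU_uAct φ J hJ])
    choose x hx using fun g => exists_unit_lift J hunit (x' g)
    refine ⟨x, fun g h => mem_filU_one_of_redU J ?_⟩
    rw [map_div, map_mul, map_div, redU_uAct φ J hJ, hx, hx, hx, hx' g h, div_self']

end Main

end Fermat.Agent.S55.G.SIndH237.UctH773
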