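import Fermat.Agent.S55.G.SIndH237.UctH773.Struct2

/-!
# S55 / G / G-SIND : leaf SIND-UCT, part 7 (helper773) — the Galois action on `RS`

* `rsAut T G L : G →* (RS T L ≃+* RS T L)` : the action of `G` on the integral model;
* `radJ_stable` : `radJ` is `G`-stable;
* `eq_one_of_trivial_mod` : if `L/L^G` is unramified above `T`, an element of `G` acting
  trivially modulo a maximal ideal of `RS` containing `radJ` is trivial.
-/

set_option autoImplicit false
set_option linter.unusedSectionVars false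
set_option linter.style.haveILetI false

open scoped NumberField TensorProduct
open IsDedekindDomain

noncomputable section

namespace Fermat.Agent.S55.G.SIndH237.UctH773

open Fermat.Agent.S55.G Fermat.Agent.S55.G.SIndH237 Fermat.Agent.S55.G.SIndH237.H959
  Fermat.Agent.S55.G.SIndH237.H63

variable (T : Finset Nat.Primes) (G L : Type) [Group G] [Field L] [NumberField L]
  [MulSemiringAction G L]

/-- The action of `g ∈ G` on the integral model, as a ring automorphism. -/
def rsAutFun (g : G) : RS T L ≃+* RS T L where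
  toFun z := ⟨asAut T G L g z, asAut_mem_RS T G L g z.2⟩
  invFun z := ⟨asAut T G L g⁻¹ z, asAut_mem_RS T G L g⁻¹ z.2⟩
  left_inv z := Subtype.ext (by
    show asAut T G L g⁻¹ (asAut T G L g z) = z
    rw [← AlgEquiv.mul_apply, ← map_mul, inv_mul_cancel, map_one]
    rfl)
  right_inv z := Subtype.ext (by
    show asAut T G L g (asAut T G L g⁻¹ z) = z
    rw [← AlgEquiv.mul_apply, ← map_mul, mul_inv_cancel, map_one]
    rfl)
  map_mul' x y := Subtype.ext (map_mul (asAut T G L g) (x : AS T L) y)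
  map_add' x y := Subtype.ext (map_add (asAut T G L g) (x : AS T L) y)

/-- The action of `G` on the integral model `RS`. -/
def rsAut : G →* (RS T L ≃+* RS T L) where
  toFun := rsAutFun T G L
  map_one' := by
    ext z
    show asAut T G L 1 (z : AS T L) = z
    rw [map_one]
    rfl
  map_mul' g h := by
    ext z
    show asAut T G L (g * h) (z : AS T L) = asAut T G L g (asAut T G L h z)
    rw [map_mul]
    rfl

@[simp] lemma coe_rsAut (g : G) (z : RS T L) :
    ((rsAut T G L g z : RS T L) : AS T L) = asAut T G L g (z : AS T L) := rfl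

lemma rsAut_natCast (g : G) (m : ℕ) : rsAut T G L g (m : RS T L) = m := map_natCast _ m

lemma rsAut_ofInt (g : G) (a : 𝓞 L) : rsAut T G L g (ofInt T L a) = ofInt T L (g • a) := by
  apply Subtype.ext
  rw [coe_rsAut, coe_ofInt, coe_ofInt, asAut_tmul]
  rfl

lemma radJ_stable (g : G) (x : RS T L) (hx : x ∈ radJ T L) : rsAut T G L g x ∈ radJ T L := by
  obtain ⟨k, hk⟩ := hx
  refine ⟨k, ?_⟩
  obtain ⟨a, ha⟩ := Ideal.mem_span_singleton'.1 hk
  rw [← map_pow, ← ha, map_mul, rsAut_natCast]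
  exact Ideal.mul_mem_left _ _ (Ideal.subset_span rfl)

/-- Unramifiedness: an element acting trivially modulo a maximal ideal above `T` is trivial. -/
lemma eq_one_of_trivial_mod [FaithfulSMul G L] (hunr : IsUnramAbove T G L)
    (𝔪 : Ideal (RS T L)) (h𝔪 : 𝔪.IsMaximal) (hJ : radJ T L ≤ 𝔪) (g : G)
    (hg : ∀ x : RS T L, rsAut T G L g x - x ∈ 𝔪) : g = 1 := by
  haveI := h𝔪
  -- the prime of `𝒪_L` below `𝔪`
  have hprime : (Ideal.comap (ofInt T L) 𝔪).IsPrime := Ideal.comap_isPrime _ _
  have hn : ((nT T : ℕ) : 𝓞 L) ∈ Ideal.comap (ofInt T L) 𝔪 := by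
    rw [Ideal.mem_comap, map_natCast]
    exact hJ (span_le_radJ T L (Ideal.subset_span rfl))
  obtain ⟨q, hqT, hq⟩ : ∃ q ∈ T, ((q : ℕ) : 𝓞 L) ∈ Ideal.comap (ofInt T L) 𝔪 := by
    have h1 : ((nT T : ℕ) : 𝓞 L) = ∏ q ∈ T, ((q : ℕ) : 𝓞 L) := by
      rw [nT, Nat.cast_prod]
    rw [h1] at hn
    exact Ideal.IsPrime.prod_mem_iff.1 hn
  have hne : Ideal.comap (ofInt T L) 𝔪 ≠ ⊥ := by
    intro h0
    rw [h0, Ideal.mem_bot] at hq
    exact q.2.ne_zero (Nat.cast_eq_zero.1 hq)
  let w : HeightOneSpectrum (𝓞 L) := ⟨Ideal.comap (ofInt T L) 𝔪, hprime, hne⟩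
  have hw : IsAbove T L w := ⟨q, hqT, hq⟩
  have hfix := hunr w hw g (fun x => by
    show g • x - x ∈ Ideal.comap (ofInt T L) 𝔪
    rw [Ideal.mem_comap, map_sub, ← rsAut_ofInt]
    exact hg _)
  exact FaithfulSMul.eq_of_smul_eq_smul (α := L) (fun x => by rw [hfix x, one_smul])

end Fermat.Agent.S55.G.SIndH237.UctH773
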