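import Fermat.Agent.S55.Local.H478.FiltH2

/-!
# S55 / G / G-SIND : leaf SIND-UCT, part 1 (helper773) — abstract successive approximation

`R` a commutative ring with an action `φ : Γ →* (R ≃+* R)` of a finite group `Γ`, `J` a
`Γ`-stable ideal such that `R` is `J`-adically separated and complete, `1 + J ⊆ Rˣ`, there is
`b : R` with `∑ γ, γ b ≡ 1 mod J`, and every `1`-cocycle (`2`-cocycle) with values in `Rˣ` is a
coboundary modulo `1 + J`.  Then every `1`-cocycle and every `2`-cocycle with values in `Rˣ` is a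
coboundary (`core_H1`, `core_H2`).
-/

set_option autoImplicit false
set_option linter.style.haveILetI false

namespace Fermat.Agent.S55.G.SIndH237.UctH773

open groupCohomology

section Core

variable {Γ R : Type} [Group Γ] [CommRing R] (φ : Γ →* (R ≃+* R))

/-- The action of `g` on the units of `R`. -/
def uAct (g : Γ) : Rˣ →* Rˣ := Units.map ((φ g : R ≃+* R) : R →* R)

@[simp] lemma coe_uAct (g : Γ) (u : Rˣ) : ((uAct φ g u : Rˣ) : R) = φ g (u : R) := rfl

/-- The action of `Γ` on `Rˣ` as a `MulDistribMulAction`. -/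
@[reducible] def unitsMDMA : MulDistribMulAction Γ Rˣ where
  smul g u := uAct φ g u
  one_smul u := Units.ext (by
    show φ 1 (u : R) = u
    rw [map_one]; rfl)
  mul_smul g h u := Units.ext (by
    show φ (g * h) (u : R) = φ g (φ h u)
    rw [map_mul]; rfl)
  smul_mul g u v := map_mul (uAct φ g) u v
  smul_one g := map_one (uAct φ g)

/-- The filtration `1 + J ^ j` of `Rˣ`. -/
def filU (J : Ideal R) (j : ℕ) : Subgroup Rˣ where
  carrier := {u | (u : R) - 1 ∈ J ^ j}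
  one_mem' := by
    show ((1 : Rˣ) : R) - 1 ∈ J ^ j
    rw [Units.val_one, sub_self]
    exact (J ^ j).zero_mem
  mul_mem' {u v} hu hv := by
    have h : ((u * v : Rˣ) : R) - 1 = (u : R) * ((v : R) - 1) + ((u : R) - 1) := by
      push_cast; ring
    show ((u * v : Rˣ) : R) - 1 ∈ J ^ j
    rw [h]
    exact (J ^ j).add_mem ((J ^ j).mul_mem_left _ hv) hu
  inv_mem' {u} hu := by
    have h : ((u⁻¹ : Rˣ) : R) - 1 = -(((u⁻¹ : Rˣ) : R) * ((u : R) - 1)) := by
      rw [mul_sub, Units.inv_mul, mul_one]; ring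
    show ((u⁻¹ : Rˣ) : R) - 1 ∈ J ^ j
    rw [h]
    exact (J ^ j).neg_mem ((J ^ j).mul_mem_left _ hu)

lemma mem_filU {J : Ideal R} {j : ℕ} {u : Rˣ} : u ∈ filU J j ↔ (u : R) - 1 ∈ J ^ j := Iff.rfl

lemma filU_zero (J : Ideal R) (u : Rˣ) : u ∈ filU J 0 := by
  rw [mem_filU, pow_zero, Ideal.one_eq_top]
  exact Submodule.mem_top

lemma filU_anti (J : Ideal R) (j : ℕ) : filU J (j + 1) ≤ filU J j := fun _ hu =>
  Ideal.pow_le_pow_right (Nat.le_succ j) hu

lemma map_mem_pow {J : Ideal R} (hJ : ∀ g x, x ∈ J → φ g x ∈ J) (j : ℕ) (g : Γ) {x : R}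
    (hx : x ∈ J ^ j) : φ g x ∈ J ^ j := by
  have h1 : J.map ((φ g : R ≃+* R) : R →+* R) ≤ J := by
    rw [Ideal.map_le_iff_le_comap]
    exact fun y hy => hJ g y hy
  have h2 : (J ^ j).map ((φ g : R ≃+* R) : R →+* R) ≤ J ^ j := by
    rw [Ideal.map_pow]
    exact Ideal.pow_right_mono h1 j
  exact h2 (Ideal.mem_map_of_mem _ hx)

lemma filU_stable {J : Ideal R} (hJ : ∀ g x, x ∈ J → φ g x ∈ J) (j : ℕ) (g : Γ) {u : Rˣ}
    (hu : u ∈ filU J j) : uAct φ g u ∈ filU J j := by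
  rw [mem_filU] at hu ⊢
  have h := map_mem_pow φ hJ j g hu
  rwa [map_sub, map_one] at h

lemma filU_separated {J : Ideal R} (hsep : ∀ x, (∀ j, x ∈ J ^ j) → x = 0) (u : Rˣ)
    (hu : ∀ j, u ∈ filU J j) : u = 1 := by
  apply Units.ext
  rw [Units.val_one, ← sub_eq_zero]
  exact hsep _ hu

lemma filU_complete {J : Ideal R}
    (hcomp : ∀ f : ℕ → R, (∀ j, f (j + 1) - f j ∈ J ^ j) → ∃ s, ∀ j, s - f j ∈ J ^ j)
    (hunit : ∀ x ∈ J, IsUnit (1 + x)) (u : ℕ → Rˣ) (hu : ∀ j, u j ∈ filU J j) :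
    ∃ s : Rˣ, ∀ n, s / ∏ j ∈ Finset.range n, u j ∈ filU J n := by
  set P : ℕ → Rˣ := fun n => ∏ j ∈ Finset.range n, u j with hP
  have hstep : ∀ j, ((P (j + 1) : Rˣ) : R) - P j ∈ J ^ j := by
    intro j
    have h1 : P (j + 1) = P j * u j := Finset.prod_range_succ _ _
    have h2 : ((P (j + 1) : Rˣ) : R) - P j = (P j : R) * ((u j : R) - 1) := by
      rw [h1]; push_cast; ring
    rw [h2]
    exact (J ^ j).mul_mem_left _ (hu j)
  obtain ⟨s, hs⟩ := hcomp (fun n => ((P n : Rˣ) : R)) hstep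
  have hsu : IsUnit s := by
    have h1 := hs 1
    rw [pow_one] at h1
    have h2 : s = (P 1 : R) * (1 + ((P 1)⁻¹ : Rˣ) * (s - (P 1 : R))) := by
      rw [mul_add, mul_one, ← mul_assoc, Units.mul_inv, one_mul]; ring
    rw [h2]
    exact (P 1).isUnit.mul (hunit _ (J.mul_mem_left _ h1))
  obtain ⟨S, rfl⟩ := hsu
  refine ⟨S, fun n => ?_⟩
  rw [mem_filU]
  have h3 : ((S / P n : Rˣ) : R) - 1 = (((P n)⁻¹ : Rˣ) : R) * ((S : R) - (P n : R)) := by
    rw [div_eq_mul_inv, Units.val_mul, mul_sub, Units.inv_mul]; ring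
  rw [h3]
  exact (J ^ n).mul_mem_left _ (hs n)

variable [Fintype Γ]

/-- Graded step for `1`-cocycles, levels `j + 1 → j + 2`. -/
lemma graded_H1 (J : Ideal R) (hJ : ∀ g x, x ∈ J → φ g x ∈ J)
    (hunit : ∀ x ∈ J, IsUnit (1 + x)) (b : R) (hb : ∑ g, φ g b - 1 ∈ J) (j : ℕ)
    (c : Γ → Rˣ) (hc : ∀ g h, c (g * h) = uAct φ g (c h) * c g)
    (hcj : ∀ g, c g ∈ filU J (j + 1)) :
    ∃ m ∈ filU J (j + 1), ∀ g, c g / (uAct φ g m / m) ∈ filU J (j + 2) := by
  classical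
  set π := Ideal.Quotient.mk (J ^ (j + 2)) with hπ
  have hJle : J ^ (j + 1) ≤ J := by
    calc J ^ (j + 1) ≤ J ^ 1 := Ideal.pow_le_pow_right (Nat.succ_le_succ (Nat.zero_le j))
      _ = J := pow_one J
  have hmul0 : ∀ x ∈ J ^ (j + 1), ∀ y ∈ J, π x * π y = 0 := by
    intro x hx y hy
    rw [← map_mul]
    apply Ideal.Quotient.eq_zero_iff_mem.2
    rw [pow_succ (n := j + 1)]
    exact Ideal.mul_mem_mul hx hy
  set a : Γ → R := fun g => (c g : R) - 1 with ha
  have haj : ∀ g, a g ∈ J ^ (j + 1) := fun g => hcj g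
  have hca : ∀ g, (c g : R) = 1 + a g := fun g => by rw [ha]; ring
  set μ : R := -∑ h, a h * φ h b with hμ
  have hμj : μ ∈ J ^ (j + 1) :=
    (J ^ (j + 1)).neg_mem ((J ^ (j + 1)).sum_mem fun h _ => (J ^ (j + 1)).mul_mem_right _ (haj h))
  obtain ⟨m, hm⟩ := hunit μ (hJle hμj)
  have hm1 : (m : R) - 1 = μ := by rw [hm]; ring
  refine ⟨m, by rw [mem_filU, hm1]; exact hμj, fun g => ?_⟩
  -- the cocycle relation modulo `J ^ (j + 2)`
  have hcoc : ∀ h, π (φ g (a h)) = π (a (g * h)) - π (a g) := by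
    intro h
    have h1 : (c (g * h) : R) = φ g (c h) * c g := by
      rw [hc g h]; rfl
    rw [hca, hca, hca, map_add, map_one] at h1
    have h2 : a (g * h) = φ g (a h) + a g + φ g (a h) * a g := by
      linear_combination h1
    have h3 : π (φ g (a h)) * π (a g) = 0 :=
      hmul0 _ (map_mem_pow φ hJ _ g (haj h)) _ (hJle (haj g))
    rw [h2, map_add, map_add, map_mul, h3]
    ring
  have htr : π (a g) * π (∑ k, φ k b) = π (a g) := by
    have h1 : (∑ k, φ k b) = 1 + (∑ k, φ k b - 1) := by ring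
    rw [h1, map_add, map_one, mul_add, mul_one, hmul0 _ (haj g) _ hb, add_zero]
  have hgμ : π (φ g μ) = π μ + π (a g) := by
    have h1 : φ g μ = -∑ h, φ g (a h) * φ (g * h) b := by
      rw [hμ, map_neg, map_sum]
      refine congrArg _ (Finset.sum_congr rfl fun h _ => ?_)
      rw [map_mul, map_mul φ g h]
      rfl
    have h2 : ∑ h, π (a (g * h)) * π (φ (g * h) b) = ∑ k, π (a k) * π (φ k b) :=
      Fintype.sum_equiv (Equiv.mulLeft g) _ _ (fun _ => rfl)
    have h3 : ∑ h, π (φ (g * h) b) = ∑ k, π (φ k b) :=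
      Fintype.sum_equiv (Equiv.mulLeft g) _ _ (fun _ => rfl)
    have h4 : π (φ g μ) = -(∑ h, (π (a (g * h)) - π (a g)) * π (φ (g * h) b)) := by
      rw [h1, map_neg, map_sum]
      refine congrArg _ (Finset.sum_congr rfl fun h _ => ?_)
      rw [map_mul π, hcoc]
    have h5 : π μ = -∑ k, π (a k) * π (φ k b) := by
      rw [hμ, map_neg, map_sum]
      refine congrArg _ (Finset.sum_congr rfl fun h _ => ?_)
      rw [map_mul π]
    rw [h4, h5]
    simp only [sub_mul]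
    rw [Finset.sum_sub_distrib, h2, ← Finset.mul_sum, h3, ← map_sum π, htr]
    ring
  have hkey : (c g : R) * m - φ g m ∈ J ^ (j + 2) := by
    apply Ideal.Quotient.eq.1
    show π ((c g : R) * m) = π (φ g m)
    have e1 : π (c g : R) = 1 + π (a g) := by rw [hca, map_add, map_one]
    have e2 : π (m : R) = 1 + π μ := by rw [hm, map_add, map_one]
    have e3 : π (φ g m) = 1 + (π μ + π (a g)) := by
      rw [hm, map_add (φ g), map_one (φ g), map_add π, map_one π, hgμ]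
    have h3 : π (a g) * π μ = 0 := hmul0 _ (haj g) _ (hJle hμj)
    rw [map_mul π, e1, e2, e3]
    linear_combination h3
  rw [mem_filU]
  have h4 : ((c g / (uAct φ g m / m) : Rˣ) : R) - 1 =
      (((uAct φ g m)⁻¹ : Rˣ) : R) * ((c g : R) * m - φ g m) := by
    have h5 : c g / (uAct φ g m / m) = (uAct φ g m)⁻¹ * (c g * m) := by
      rw [div_div_eq_mul_div, div_eq_mul_inv, mul_comm]
    rw [h5, Units.val_mul, Units.val_mul, mul_sub]
    have h6 : (((uAct φ g m)⁻¹ : Rˣ) : R) * φ g m = 1 := by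
      rw [← coe_uAct, Units.inv_mul]
    rw [h6]
  rw [h4]
  exact (J ^ (j + 2)).mul_mem_left _ hkey

/-- Graded step for `2`-cocycles, levels `j + 1 → j + 2`. -/
lemma graded_H2 (J : Ideal R) (hJ : ∀ g x, x ∈ J → φ g x ∈ J)
    (hunit : ∀ x ∈ J, IsUnit (1 + x)) (b : R) (hb : ∑ g, φ g b - 1 ∈ J) (j : ℕ)
    (c : Γ × Γ → Rˣ)
    (hc : ∀ g h k, c (g * h, k) * c (g, h) = uAct φ g (c (h, k)) * c (g, h * k))
    (hcj : ∀ p, c p ∈ filU J (j + 1)) :
    ∃ x : Γ → Rˣ, (∀ g, x g ∈ filU J (j + 1)) ∧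
      ∀ g h, c (g, h) / (uAct φ g (x h) / x (g * h) * x g) ∈ filU J (j + 2) := by
  classical
  set π := Ideal.Quotient.mk (J ^ (j + 2)) with hπ
  have hJle : J ^ (j + 1) ≤ J := by
    calc J ^ (j + 1) ≤ J ^ 1 := Ideal.pow_le_pow_right (Nat.succ_le_succ (Nat.zero_le j))
      _ = J := pow_one J
  have hmul0 : ∀ x ∈ J ^ (j + 1), ∀ y ∈ J, π x * π y = 0 := by
    intro x hx y hy
    rw [← map_mul]
    apply Ideal.Quotient.eq_zero_iff_mem.2
    rw [pow_succ (n := j + 1)]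
    exact Ideal.mul_mem_mul hx hy
  set a : Γ × Γ → R := fun p => (c p : R) - 1 with ha
  have haj : ∀ p, a p ∈ J ^ (j + 1) := fun p => hcj p
  have hca : ∀ p, (c p : R) = 1 + a p := fun p => by rw [ha]; ring
  set ξ : Γ → R := fun g => ∑ k, a (g, k) * φ (g * k) b with hξ
  have hξj : ∀ g, ξ g ∈ J ^ (j + 1) := fun g =>
    (J ^ (j + 1)).sum_mem fun k _ => (J ^ (j + 1)).mul_mem_right _ (haj (g, k))
  choose x hx using fun g => hunit (ξ g) (hJle (hξj g))
  have hx1 : ∀ g, (x g : R) - 1 = ξ g := fun g => by rw [hx]; ring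
  refine ⟨x, fun g => by rw [mem_filU, hx1]; exact hξj g, fun g h => ?_⟩
  -- the cocycle relation modulo `J ^ (j + 2)`
  have hcoc : ∀ k, π (φ g (a (h, k))) = π (a (g * h, k)) + π (a (g, h)) - π (a (g, h * k)) := by
    intro k
    have h1 : (c (g * h, k) : R) * c (g, h) = φ g (c (h, k)) * c (g, h * k) := by
      have := congrArg (fun u : Rˣ => (u : R)) (hc g h k)
      simpa using this
    rw [hca, hca, hca, hca, map_add, map_one] at h1
    have h3 : π (φ g (a (h, k))) * π (a (g, h * k)) = 0 :=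
      hmul0 _ (map_mem_pow φ hJ _ g (haj _)) _ (hJle (haj _))
    have h4 : π (a (g * h, k)) * π (a (g, h)) = 0 := hmul0 _ (haj _) _ (hJle (haj _))
    have h5 := congrArg π h1
    simp only [map_add, map_mul, map_one] at h5
    linear_combination (-1 : R ⧸ J ^ (j + 2)) * h5 + h4 - h3
  have htr : π (a (g, h)) * π (∑ k, φ k b) = π (a (g, h)) := by
    have h1 : (∑ k, φ k b) = 1 + (∑ k, φ k b - 1) := by ring
    rw [h1, map_add, map_one, mul_add, mul_one, hmul0 _ (haj _) _ hb, add_zero]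
  have hgξ : π (φ g (ξ h)) = π (ξ (g * h)) + π (a (g, h)) - π (ξ g) := by
    have h1 : φ g (ξ h) = ∑ k, φ g (a (h, k)) * φ (g * h * k) b := by
      rw [hξ, map_sum]
      refine Finset.sum_congr rfl fun k _ => ?_
      rw [map_mul, mul_assoc g h k, map_mul φ g (h * k)]
      rfl
    have h2 : ∑ k, π (a (g, h * k)) * π (φ (g * h * k) b) = ∑ k, π (a (g, k)) * π (φ (g * k) b) :=
      Fintype.sum_equiv (Equiv.mulLeft h) _ _ (fun k => by
        rw [Equiv.coe_mulLeft, mul_assoc])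
    have h3 : ∑ k, π (φ (g * h * k) b) = ∑ k, π (φ k b) :=
      Fintype.sum_equiv (Equiv.mulLeft (g * h)) _ _ (fun _ => rfl)
    have h4 : π (φ g (ξ h)) = ∑ k, (π (a (g * h, k)) + π (a (g, h)) - π (a (g, h * k))) *
        π (φ (g * h * k) b) := by
      rw [h1, map_sum]
      refine Finset.sum_congr rfl fun k _ => ?_
      rw [map_mul π, hcoc]
    have h5 : ∀ g', π (ξ g') = ∑ k, π (a (g', k)) * π (φ (g' * k) b) := by
      intro g'
      rw [hξ, map_sum]
      refine Finset.sum_congr rfl fun k _ => ?_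
      rw [map_mul π]
    rw [h4, h5, h5]
    simp only [sub_mul, add_mul]
    rw [Finset.sum_sub_distrib, Finset.sum_add_distrib, h2, ← Finset.mul_sum, h3,
      ← map_sum π, htr]
  have hkey : (c (g, h) : R) * x (g * h) - φ g (x h) * x g ∈ J ^ (j + 2) := by
    apply Ideal.Quotient.eq.1
    show π ((c (g, h) : R) * x (g * h)) = π (φ g (x h) * x g)
    have e1 : π (c (g, h) : R) = 1 + π (a (g, h)) := by rw [hca, map_add, map_one]
    have e2 : ∀ g', π (x g' : R) = 1 + π (ξ g') := fun g' => by rw [hx, map_add, map_one]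
    have e3 : π (φ g (x h)) = 1 + (π (ξ (g * h)) + π (a (g, h)) - π (ξ g)) := by
      rw [hx, map_add (φ g), map_one (φ g), map_add π, map_one π, hgξ]
    have h3 : π (a (g, h)) * π (ξ (g * h)) = 0 := hmul0 _ (haj _) _ (hJle (hξj _))
    have h4 : π (ξ (g * h)) * π (ξ g) = 0 := hmul0 _ (hξj _) _ (hJle (hξj _))
    have h5 : π (a (g, h)) * π (ξ g) = 0 := hmul0 _ (haj _) _ (hJle (hξj _))
    have h6 : π (ξ g) * π (ξ g) = 0 := hmul0 _ (hξj _) _ (hJle (hξj _))
    rw [map_mul π, map_mul π, e1, e2, e2, e3]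
    linear_combination h3 - h4 - h5 + h6
  rw [mem_filU]
  have h4 : ((c (g, h) / (uAct φ g (x h) / x (g * h) * x g) : Rˣ) : R) - 1 =
      (((uAct φ g (x h) * x g)⁻¹ : Rˣ) : R) *
        ((c (g, h) : R) * x (g * h) - φ g (x h) * x g) := by
    have h5 : c (g, h) / (uAct φ g (x h) / x (g * h) * x g) =
        (uAct φ g (x h) * x g)⁻¹ * (c (g, h) * x (g * h)) := by
      rw [div_mul_eq_mul_div, div_div_eq_mul_div, div_eq_mul_inv, mul_comm]
    rw [h5, Units.val_mul, Units.val_mul, mul_sub]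
    have h6 : (((uAct φ g (x h) * x g)⁻¹ : Rˣ) : R) * (φ g (x h) * x g) = 1 := by
      rw [← coe_uAct, ← Units.val_mul, Units.inv_mul]
    rw [h6]
  rw [h4]
  exact (J ^ (j + 2)).mul_mem_left _ hkey

/-- **Successive approximation, degree 1.** -/
theorem core_H1 (J : Ideal R) (hJ : ∀ g x, x ∈ J → φ g x ∈ J)
    (hsep : ∀ x, (∀ j, x ∈ J ^ j) → x = 0)
    (hcomp : ∀ f : ℕ → R, (∀ j, f (j + 1) - f j ∈ J ^ j) → ∃ s, ∀ j, s - f j ∈ J ^ j)
    (hunit : ∀ x ∈ J, IsUnit (1 + x)) (b : R) (hb : ∑ g, φ g b - 1 ∈ J)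
    (hres : ∀ c : Γ → Rˣ, (∀ g h, c (g * h) = uAct φ g (c h) * c g) →
      ∃ m : Rˣ, ∀ g, c g / (uAct φ g m / m) ∈ filU J 1)
    (c : Γ → Rˣ) (hc : ∀ g h, c (g * h) = uAct φ g (c h) * c g) :
    ∃ m : Rˣ, ∀ g, uAct φ g m / m = c g := by
  letI : MulDistribMulAction Γ Rˣ := unitsMDMA φ
  obtain ⟨m, -, hm⟩ := Fermat.Agent.S55.Local.H478.filtH1 Γ Rˣ (filU J) (filU_anti J)
    (fun j g x hx => filU_stable φ hJ j g hx) (filU_complete hcomp hunit)
    (filU_separated hsep)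
    (fun j c' hc' hcj => by
      have hc'' : ∀ g h, c' (g * h) = uAct φ g (c' h) * c' g := hc'
      cases j with
      | zero =>
        obtain ⟨m, hm⟩ := hres c' hc''
        exact ⟨m, filU_zero J m, hm⟩
      | succ j => exact graded_H1 φ J hJ hunit b hb j c' hc'' hcj)
    c hc (fun g => filU_zero J _)
  exact ⟨m, hm⟩

/-- **Successive approximation, degree 2.** -/
theorem core_H2 (J : Ideal R) (hJ : ∀ g x, x ∈ J → φ g x ∈ J)
    (hsep : ∀ x, (∀ j, x ∈ J ^ j) → x = 0)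
    (hcomp : ∀ f : ℕ → R, (∀ j, f (j + 1) - f j ∈ J ^ j) → ∃ s, ∀ j, s - f j ∈ J ^ j)
    (hunit : ∀ x ∈ J, IsUnit (1 + x)) (b : R) (hb : ∑ g, φ g b - 1 ∈ J)
    (hres : ∀ c : Γ × Γ → Rˣ,
      (∀ g h k, c (g * h, k) * c (g, h) = uAct φ g (c (h, k)) * c (g, h * k)) →
      ∃ x : Γ → Rˣ, ∀ g h, c (g, h) / (uAct φ g (x h) / x (g * h) * x g) ∈ filU J 1)
    (c : Γ × Γ → Rˣ)
    (hc : ∀ g h k, c (g * h, k) * c (g, h) = uAct φ g (c (h, k)) * c (g, h * k)) :
    ∃ x : Γ → Rˣ, ∀ g h, uAct φ g (x h) / x (g * h) * x g = c (g, h) := by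
  letI : MulDistribMulAction Γ Rˣ := unitsMDMA φ
  obtain ⟨x, -, hx⟩ := Fermat.Agent.S55.Local.H478.filtH2 Γ Rˣ (filU J) (filU_anti J)
    (fun j g x hx => filU_stable φ hJ j g hx) (filU_complete hcomp hunit)
    (filU_separated hsep)
    (fun j c' hc' hcj => by
      have hc'' : ∀ g h k, c' (g * h, k) * c' (g, h) = uAct φ g (c' (h, k)) * c' (g, h * k) :=
        hc'
      cases j with
      | zero =>
        obtain ⟨x, hx⟩ := hres c' hc''
        exact ⟨x, fun g => filU_zero J _, hx⟩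
      | succ j => exact graded_H2 φ J hJ hunit b hb j c' hc'' hcj)
    c hc (fun p => filU_zero J _)
  exact ⟨x, hx⟩

end Core

end Fermat.Agent.S55.G.SIndH237.UctH773
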