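import Fermat.Agent.S55.G.SIndH237.UctH773.Abstract
import Fermat.Agent.S55.G.SIndH237.UctH773.Action

/-!
# S55 / G / G-SIND : leaf SIND-UCT (helper773) — `UnitsCohTrivSpec`

`unitsCohTriv : UnitsCohTrivSpec` : if `L/L^G` is unramified at all primes above `T`, then
`H¹(H, U_T(L)) = H²(H, U_T(L)) = 0` for every subgroup `H ≤ G`.

Route: `U_T(L) = RSˣ`, `RS = 𝒪_L ⊗ ℤ_T` is complete and separated for the filtration by the
powers of its radical `radJ`, `RS ⧸ radJ` is a finite reduced ring on which `H` acts without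
inertia; successive approximation (`Core.lean`) reduces to the residue ring, where semi-local
Shapiro (helper897), Hilbert 90 and the vanishing of `H²` for finite fields apply.
-/

set_option autoImplicit false
set_option linter.unusedSectionVars false
set_option linter.style.haveILetI false

open scoped NumberField TensorProduct
open IsDedekindDomain CategoryTheory

noncomputable section

namespace Fermat.Agent.S55.G.SIndH237.UctH773

open Fermat.Agent.S55.G Fermat.Agent.S55.G.SIndH237

variable (T : Finset Nat.Primes) (G L : Type) [Group G] [Field L] [NumberField L]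
  [MulSemiringAction G L]

variable (H : Subgroup G)

/-- The restriction of `U_T(L)` to `H`. -/
abbrev UH : Rep.{0} ℤ H := Fermat.Agent.S55.T.resSub (URep T G L) H

/-- The underlying element of `U_T(L)`. -/
def UH.elt (v : (UH T G L H).V) : (UT T L).toIntSubmodule := v

/-- The element of `UH` with given underlying element of `U_T(L)`. -/
def UH.mk (v : (UT T L).toIntSubmodule) : (UH T G L H).V := v

/-- The value in `L ⊗ ℚ_T` of an element of `UH`. -/
def UH.val (v : (UH T G L H).V) : AS T L :=
  (((UH.elt T G L H v).1.toMul : (AS T L)ˣ) : AS T L)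

lemma UH_ext {v v' : (UH T G L H).V} (h : UH.val T G L H v = UH.val T G L H v') : v = v' :=
  Subtype.ext (Additive.toMul.injective (Units.ext h))

lemma RSU_ext {u u' : (RS T L)ˣ} (h : ((u : RS T L) : AS T L) = ((u' : RS T L) : AS T L)) :
    u = u' := Units.ext (Subtype.ext h)

/-- The unit of `RS` attached to an element of `U_T(L)`. -/
def ofUT (v : (UH T G L H).V) : (RS T L)ˣ where
  val := ⟨UH.val T G L H v, (UH.elt T G L H v).2.1⟩
  inv := ⟨((((UH.elt T G L H v).1.toMul)⁻¹ : (AS T L)ˣ) : AS T L), (UH.elt T G L H v).2.2⟩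
  val_inv := Subtype.ext (Units.mul_inv _)
  inv_val := Subtype.ext (Units.inv_mul _)

/-- The element of `U_T(L)` attached to a unit of `RS`. -/
def toUT (u : (RS T L)ˣ) : (UH T G L H).V :=
  UH.mk T G L H ⟨Additive.ofMul (Units.map ((RS T L).subtype : RS T L →* AS T L) u),
    ⟨(u : RS T L).2, ((u⁻¹ : (RS T L)ˣ) : RS T L).2⟩⟩

lemma toUT_ofUT (v : (UH T G L H).V) : toUT T G L H (ofUT T G L H v) = v :=
  UH_ext T G L H rfl

lemma ofUT_add (v v' : (UH T G L H).V) :
    ofUT T G L H (v + v') = ofUT T G L H v * ofUT T G L H v' := RSU_ext T L rfl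

lemma toUT_mul (u u' : (RS T L)ˣ) :
    toUT T G L H (u * u') = toUT T G L H u + toUT T G L H u' :=
  UH_ext T G L H rfl

lemma toUT_inv (u : (RS T L)ˣ) : toUT T G L H u⁻¹ = -toUT T G L H u :=
  UH_ext T G L H rfl

lemma toUT_div (u u' : (RS T L)ˣ) :
    toUT T G L H (u / u') = toUT T G L H u - toUT T G L H u' := by
  rw [div_eq_mul_inv, toUT_mul, toUT_inv, sub_eq_add_neg]

/-- The action of `H` on `RS`. -/
def rsAutH : H →* (RS T L ≃+* RS T L) := (rsAut T G L).comp H.subtype

lemma ofUT_rho (g : H) (v : (UH T G L H).V) :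
    ofUT T G L H ((UH T G L H).ρ g v) = uAct (rsAutH T G L H) g (ofUT T G L H v) :=
  RSU_ext T L rfl

lemma toUT_uAct (g : H) (u : (RS T L)ˣ) :
    toUT T G L H (uAct (rsAutH T G L H) g u) = (UH T G L H).ρ g (toUT T G L H u) :=
  UH_ext T G L H rfl

/-- **SIND-UCT.**  Unit idèles at unramified primes are cohomologically trivial in degrees
`1` and `2`. -/
theorem unitsCohTriv : UnitsCohTrivSpec := by
  intro T G L _ _ _ _ _ _ hunr H
  classical
  letI : Fintype H := Fintype.ofFinite H
  obtain ⟨h1, h2⟩ := uct_abstract (rsAutH T G L H) (radJ T L)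
    (fun g x hx => radJ_stable T G L g x hx) (radJ_sep T L) (radJ_comp T L) (radJ_unit T L)
    (finite_quot_radJ T L) (reduced_quot_radJ T L)
    (fun 𝔪 h𝔪 hJ s hs => Subtype.ext (eq_one_of_trivial_mod T G L hunr 𝔪 h𝔪 hJ s hs))
  constructor
  · show Limits.IsZero (groupCohomology (UH T G L H) 1)
    rw [isZero_H1_iff_cob]
    intro f hf
    obtain ⟨m, hm⟩ := h1 (fun g => ofUT T G L H (f g)) (fun g h => by
      show ofUT T G L H (f (g * h)) = _
      rw [hf g h, ofUT_add, ofUT_rho])
    refine ⟨toUT T G L H m, fun g => ?_⟩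
    rw [← toUT_uAct, ← toUT_div, hm g, toUT_ofUT]
  · show Limits.IsZero (groupCohomology (UH T G L H) 2)
    rw [isZero_H2_iff_cob]
    intro f hf
    obtain ⟨x, hx⟩ := h2 (fun p => ofUT T G L H (f p)) (fun g h k => by
      show ofUT T G L H (f (g * h, k)) * ofUT T G L H (f (g, h)) = _
      rw [← ofUT_add, hf g h k, ofUT_add, ofUT_rho])
    refine ⟨fun g => toUT T G L H (x g), fun g h => ?_⟩
    show (UH T G L H).ρ g (toUT T G L H (x h)) -
      toUT T G L H (x (g * h)) + toUT T G L H (x g) = f (g, h)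
    rw [← toUT_uAct, ← toUT_div, ← toUT_mul, hx g h, toUT_ofUT]

end Fermat.Agent.S55.G.SIndH237.UctH773
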