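import Mathlib

/-!
# S55 / G / G-SIND : leaf SIND-UCT, part 2 (helper773) — `H¹ = 0`, `H² = 0` in cocycle form
-/

set_option autoImplicit false

namespace Fermat.Agent.S55.G.SIndH237.UctH773

open CategoryTheory groupCohomology

variable {k Γ : Type} [CommRing k] [Group Γ]

/-- `H¹(Γ, A) = 0` iff every `1`-cocycle is a coboundary. -/
theorem isZero_H1_iff_cob (A : Rep.{0} k Γ) :
    Limits.IsZero (groupCohomology A 1) ↔
      ∀ f : Γ → A.V, (∀ g h : Γ, f (g * h) = A.ρ g (f h) + f g) →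
        ∃ x : A.V, ∀ g : Γ, A.ρ g x - x = f g := by
  constructor
  · intro h f hf
    have hmem : f ∈ cocycles₁ A := (mem_cocycles₁_iff f).2 hf
    have h0 : H1π A ⟨f, hmem⟩ = 0 := (ModuleCat.isZero_iff_subsingleton.1 h).elim _ _
    rw [H1π_eq_zero_iff] at h0
    obtain ⟨y, hy⟩ := h0
    refine ⟨y, fun g => ?_⟩
    have := congrFun hy g
    rw [d₀₁_hom_apply] at this
    exact this
  · intro h
    rw [ModuleCat.isZero_iff_subsingleton]
    refine ⟨fun x y => ?_⟩
    suffices ∀ z : H1 A, z = 0 by rw [this x, this y]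
    intro z
    induction z using H1_induction_on with
    | h c =>
      rw [H1π_eq_zero_iff]
      obtain ⟨y, hy⟩ := h c (fun g h => (mem_cocycles₁_iff (c : Γ → A.V)).1 c.2 g h)
      refine ⟨y, funext fun g => ?_⟩
      rw [d₀₁_hom_apply]
      exact hy g

/-- `H²(Γ, A) = 0` iff every `2`-cocycle is a coboundary. -/
theorem isZero_H2_iff_cob (A : Rep.{0} k Γ) :
    Limits.IsZero (groupCohomology A 2) ↔
      ∀ f : Γ × Γ → A.V,
        (∀ g h j : Γ, f (g * h, j) + f (g, h) = A.ρ g (f (h, j)) + f (g, h * j)) →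
        ∃ x : Γ → A.V, ∀ g h : Γ, A.ρ g (x h) - x (g * h) + x g = f (g, h) := by
  constructor
  · intro h f hf
    have hmem : f ∈ cocycles₂ A := (mem_cocycles₂_iff f).2 hf
    have h0 : H2π A ⟨f, hmem⟩ = 0 := (ModuleCat.isZero_iff_subsingleton.1 h).elim _ _
    rw [H2π_eq_zero_iff] at h0
    obtain ⟨y, hy⟩ := h0
    refine ⟨y, fun g h => ?_⟩
    have := congrFun hy (g, h)
    rw [d₁₂_hom_apply] at this
    exact this
  · intro h
    rw [ModuleCat.isZero_iff_subsingleton]
    refine ⟨fun x y => ?_⟩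
    suffices ∀ z : H2 A, z = 0 by rw [this x, this y]
    intro z
    induction z using H2_induction_on with
    | h c =>
      rw [H2π_eq_zero_iff]
      obtain ⟨y, hy⟩ := h c (fun g h j => (mem_cocycles₂_iff (c : Γ × Γ → A.V)).1 c.2 g h j)
      refine ⟨y, funext fun p => ?_⟩
      rw [d₁₂_hom_apply]
      exact hy p.1 p.2

end Fermat.Agent.S55.G.SIndH237.UctH773
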