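import Fermat.Agent.S55.G.LocH897.Coh
import Fermat.Agent.S55.G.H953.Hilbert90
import Fermat.Agent.S55.T.ShapiroH303
import Fermat.Agent.S55.T.SumH635
import Fermat.Agent.S55.Local.H542.FF2Final
import Fermat.Agent.S55.G.SIndH237.UctH773.Core
import Fermat.Agent.S55.G.SIndH237.UctH773.Transl

/-!
# S55 / G / G-SIND : leaf SIND-UCT, part 3 (helper773) — the residue step

`B` a finite reduced commutative ring with an action `φ` of a finite group `Γ` which is
*unramified*: an element of `Γ` acting trivially modulo a maximal ideal is trivial.  Then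
* `exists_trace_one` : there is `b : B` with `∑ γ, γ b = 1`;
* `semilocal_H1`, `semilocal_H2` : every `1`-cocycle (`2`-cocycle) with values in `Bˣ` is a
  coboundary.
-/

set_option autoImplicit false
set_option linter.style.haveILetI false
set_option linter.unusedSectionVars false

namespace Fermat.Agent.S55.G.SIndH237.UctH773

open CategoryTheory groupCohomology
open Fermat.Agent.S55 Fermat.Agent.S55.G.LocH897

/-! ### Fields -/

section Field

variable {D E : Type} [Group D] [Field E] (ψ : D →* (E ≃+* E))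

/-- A finite group acting faithfully on a field has an element of trace one. -/
lemma exists_trace_one_field [Fintype D] (hψ : Function.Injective ψ) :
    ∃ β : E, ∑ d, ψ d β = 1 := by
  classical
  have hli : LinearIndependent E (fun d : D => ((ψ d : E ≃+* E) : E → E)) :=
    LinearIndependent.comp (ι' := D) (linearIndependent_monoidHom E E)
      (fun d => ((ψ d : E ≃+* E) : E →* E))
      (fun x y h => hψ (by
        ext z
        exact DFunLike.congr_fun h z))
  have hne : (∑ d : D, (1 : E) • ((ψ d : E ≃+* E) : E → E)) ≠ 0 := by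
    intro h0
    have := Fintype.linearIndependent_iff.1 hli (fun _ => (1 : E)) h0 1
    exact one_ne_zero this
  obtain ⟨z, hz⟩ : ∃ z, (∑ d : D, (1 : E) • ((ψ d : E ≃+* E) : E → E)) z ≠ 0 :=
    not_forall.1 (fun hall => hne (funext hall))
  have hz' : (∑ d : D, ψ d z) ≠ 0 := by
    simpa [Finset.sum_apply] using hz
  have ht : ∀ g, ψ g (∑ d : D, ψ d z) = ∑ d : D, ψ d z := by
    intro g
    rw [map_sum]
    exact Fintype.sum_equiv (Equiv.mulLeft g) _ _ (fun d => by
      rw [Equiv.coe_mulLeft, map_mul]; rfl)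
  refine ⟨z * (∑ d : D, ψ d z)⁻¹, ?_⟩
  have h1 : ∀ d, ψ d (z * (∑ d : D, ψ d z)⁻¹) = ψ d z * (∑ d : D, ψ d z)⁻¹ := fun d => by
    rw [map_mul, map_inv₀, ht]
  simp only [h1]
  rw [← Finset.sum_mul, mul_inv_cancel₀ hz']

/-- `H²(D, Eˣ) = 0` for a finite group acting faithfully on a finite field (cocycle form). -/
theorem h2_finiteField [Finite D] [Finite E] (hψ : Function.Injective ψ)
    (c : D × D → Eˣ)
    (hc : ∀ g h k, c (g * h, k) * c (g, h) = uAct ψ g (c (h, k)) * c (g, h * k)) :
    ∃ x : D → Eˣ, ∀ g h, uAct ψ g (x h) / x (g * h) * x g = c (g, h) := by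
  letI : MulSemiringAction D E := MulSemiringAction.compHom E ψ
  have hsmul : ∀ (g : D) (z : E), g • z = ψ g z := fun _ _ => rfl
  haveI : FaithfulSMul D E := ⟨fun {g h} hgh => hψ (RingEquiv.ext fun z => by
    rw [← hsmul, ← hsmul]; exact hgh z)⟩
  let e : D ≃* (E ≃ₐ[FixedPoints.subfield D E] E) := FixedPoints.toAlgAutMulEquiv D E
  have he : ∀ (g : D) (z : E), e g z = ψ g z := fun _ _ => rfl
  have hact : ∀ (σ : E ≃ₐ[FixedPoints.subfield D E] E) (u : Eˣ),
      σ • u = uAct ψ (e.symm σ) u := by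
    intro σ u
    apply Units.ext
    rw [coe_uAct, ← he, e.apply_symm_apply]
    rfl
  obtain ⟨x', hx'⟩ := Fermat.Agent.S55.Local.H542.mulH2FiniteField (FixedPoints.subfield D E) E
    (fun p => c (e.symm p.1, e.symm p.2)) (fun σ τ υ => by
      show c (e.symm (σ * τ), e.symm υ) * c (e.symm σ, e.symm τ) =
        σ • c (e.symm τ, e.symm υ) * c (e.symm σ, e.symm (τ * υ))
      rw [map_mul, map_mul, hact]
      exact hc _ _ _)
  refine ⟨fun g => x' (e g), fun g h => ?_⟩
  have := hx' (e g) (e h)
  rw [hact] at this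
  simp only [e.symm_apply_apply, ← map_mul] at this
  exact this

/-- `H²(D, Eˣ) = 0` for a finite group acting faithfully on a finite field. -/
theorem isZero_H2_finiteField [Finite D] [Finite E] (hψ : Function.Injective ψ) :
    Limits.IsZero (groupCohomology (Rep.of (LocH897.uRepr ψ)) 2) := by
  rw [isZero_H2_iff_cob]
  intro f hf
  obtain ⟨x, hx⟩ := h2_finiteField ψ hψ (fun p => Additive.toMul (f p)) (fun g h k => by
    have := hf g h k
    exact congrArg Additive.toMul this)
  refine ⟨fun g => Additive.ofMul (x g), fun g h => ?_⟩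
  have := hx g h
  exact congrArg Additive.ofMul this

/-- `H¹(D, Eˣ) = 0` for a finite group acting faithfully on a field (Hilbert 90). -/
theorem isZero_H1_field [Finite D] (hψ : Function.Injective ψ) :
    Limits.IsZero (groupCohomology (Rep.of (LocH897.uRepr ψ)) 1) :=
  Fermat.Agent.S55.G.H953.isZero_H1_unitsRepr ψ hψ

end Field

/-! ### Finite reduced rings -/

section Semilocal

variable {Γ B : Type} [Group Γ] [CommRing B] (φ : Γ →* (B ≃+* B))

/-- The action is unramified: an element acting trivially modulo a maximal ideal is trivial. -/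
def IsUnr : Prop := ∀ 𝔪 : Ideal B, 𝔪.IsMaximal → ∀ s : Γ, (∀ x, φ s x - x ∈ 𝔪) → s = 1

variable {φ}

lemma resAut_injective (hunr : IsUnr φ) (𝔪 : Ideal B) (h𝔪 : 𝔪.IsMaximal) :
    Function.Injective (resAut φ 𝔪) := by
  rw [injective_iff_map_eq_one]
  intro s hs
  apply Subtype.ext
  refine hunr 𝔪 h𝔪 s fun x => ?_
  have h1 := congrArg (fun e : (B ⧸ 𝔪) ≃+* (B ⧸ 𝔪) => e (Ideal.Quotient.mk 𝔪 x)) hs
  simp only [resAut_mk, RingAut.one_apply] at h1
  exact Ideal.Quotient.eq.1 h1

variable [Finite B] [IsReduced B]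

/-- Semi-local Shapiro for units: reduction to the residue fields. -/
lemma isZero_of_forall_orbit (n : ℕ)
    (h : ∀ o : OrbitIdx φ,
      Limits.IsZero (groupCohomology (ResUnitsRep φ (orbitRep φ o)) n)) :
    Limits.IsZero (groupCohomology (Rep.of (LocH897.uRepr φ)) n) := by
  have hb := gLoc_bijective_orbitRep φ (LocH897.uRepr φ) (fun _ _ => rfl)
    T.ShapiroH303.shapiroExplicit T.H635.finiteProd n
  haveI : ∀ o, Subsingleton (groupCohomology (ResUnitsRep φ (orbitRep φ o)) n) :=
    fun o => ModuleCat.subsingleton_of_isZero (h o)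
  haveI : Subsingleton (groupCohomology (Rep.of (LocH897.uRepr φ)) n) := hb.1.subsingleton
  exact ModuleCat.isZero_of_subsingleton _

variable [Finite Γ]

theorem isZero_H1_semilocal (hunr : IsUnr φ) :
    Limits.IsZero (groupCohomology (Rep.of (LocH897.uRepr φ)) 1) := by
  refine isZero_of_forall_orbit 1 fun o => ?_
  haveI := orbitRep_isMaximal φ o
  letI := Ideal.Quotient.field (orbitRep φ o)
  exact isZero_H1_field (resAut φ (orbitRep φ o))
    (resAut_injective hunr _ (orbitRep_isMaximal φ o))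

theorem isZero_H2_semilocal (hunr : IsUnr φ) :
    Limits.IsZero (groupCohomology (Rep.of (LocH897.uRepr φ)) 2) := by
  refine isZero_of_forall_orbit 2 fun o => ?_
  haveI := orbitRep_isMaximal φ o
  letI := Ideal.Quotient.field (orbitRep φ o)
  haveI : Finite (B ⧸ orbitRep φ o) :=
    Finite.of_surjective _ (Ideal.Quotient.mk_surjective (I := orbitRep φ o))
  exact isZero_H2_finiteField (resAut φ (orbitRep φ o))
    (resAut_injective hunr _ (orbitRep_isMaximal φ o))

/-- Every `1`-cocycle with values in `Bˣ` is a coboundary. -/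
theorem semilocal_H1 (hunr : IsUnr φ) (c : Γ → Bˣ)
    (hc : ∀ g h, c (g * h) = uAct φ g (c h) * c g) :
    ∃ m : Bˣ, ∀ g, uAct φ g m / m = c g := by
  obtain ⟨x, hx⟩ := (isZero_H1_iff_cob _).1 (isZero_H1_semilocal hunr)
    (fun g => Additive.ofMul (c g)) (fun g h => congrArg Additive.ofMul (hc g h))
  exact ⟨Additive.toMul x, fun g => congrArg Additive.toMul (hx g)⟩

/-- Every `2`-cocycle with values in `Bˣ` is a coboundary. -/
theorem semilocal_H2 (hunr : IsUnr φ) (c : Γ × Γ → Bˣ)
    (hc : ∀ g h k, c (g * h, k) * c (g, h) = uAct φ g (c (h, k)) * c (g, h * k)) :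
    ∃ x : Γ → Bˣ, ∀ g h, uAct φ g (x h) / x (g * h) * x g = c (g, h) := by
  obtain ⟨x, hx⟩ := (isZero_H2_iff_cob _).1 (isZero_H2_semilocal hunr)
    (fun p => Additive.ofMul (c p)) (fun g h k => congrArg Additive.ofMul (hc g h k))
  exact ⟨fun g => Additive.toMul (x g), fun g h => congrArg Additive.toMul (hx g h)⟩

/-- There is an element of trace one. -/
theorem exists_trace_one [Fintype Γ] (hunr : IsUnr φ) : ∃ b : B, ∑ g, φ g b = 1 := by
  classical
  have hβ : ∀ o : OrbitIdx φ, ∃ β : B ⧸ orbitRep φ o,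
      ∑ s : decomp φ (orbitRep φ o), resAut φ (orbitRep φ o) s β = 1 := by
    intro o
    haveI := orbitRep_isMaximal φ o
    letI := Ideal.Quotient.field (orbitRep φ o)
    exact exists_trace_one_field (resAut φ (orbitRep φ o))
      (resAut_injective hunr _ (orbitRep_isMaximal φ o))
  choose β hβ using hβ
  let f : ∀ o : OrbitIdx φ, Γ → B ⧸ orbitRep φ o := fun o g =>
    if h : g ∈ decomp φ (orbitRep φ o) then resAut φ (orbitRep φ o) ⟨g, h⟩ (β o) else 0
  have hf : ∀ o (s : decomp φ (orbitRep φ o)) g,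
      f o (s * g) = resAut φ (orbitRep φ o) s (f o g) := by
    intro o s g
    by_cases hg : g ∈ decomp φ (orbitRep φ o)
    · have hsg : (s : Γ) * g ∈ decomp φ (orbitRep φ o) := mul_mem s.2 hg
      simp only [f, dif_pos hg, dif_pos hsg]
      rw [← resAut_mul_apply]
      rfl
    · have hsg : ¬ (s : Γ) * g ∈ decomp φ (orbitRep φ o) := fun h =>
        hg ((Subgroup.mul_mem_cancel_left _ s.2).1 h)
      simp only [f, dif_neg hg, dif_neg hsg, map_zero]
  obtain ⟨b, hb, -⟩ := existsUnique_ring φ (orbitRep φ) (orbitRep_isMaximal φ)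
    (orbitRep_cover φ) (orbitRep_disj φ) f hf
  refine ⟨b, ?_⟩
  obtain ⟨c, -, hcu⟩ := existsUnique_ring φ (orbitRep φ) (orbitRep_isMaximal φ)
    (orbitRep_cover φ) (orbitRep_disj φ) (fun o _ => (1 : B ⧸ orbitRep φ o))
    (fun o s g => by simp)
  rw [hcu (∑ g, φ g b) ?_, hcu 1 (fun o g => by simp)]
  intro o g
  rw [map_sum, map_sum]
  have h1 : ∀ γ, Ideal.Quotient.mk (orbitRep φ o) (φ g (φ γ b)) = f o (g * γ) := fun γ => by
    rw [← hb o (g * γ), map_mul]
    rfl
  simp only [h1]
  rw [Fintype.sum_equiv (Equiv.mulLeft g) (fun γ => f o (g * γ)) (f o) (fun _ => rfl)]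
  rw [← hβ o]
  have h2 : ∑ γ : Γ, f o γ = ∑ γ ∈ Finset.univ.filter (· ∈ decomp φ (orbitRep φ o)), f o γ := by
    rw [Finset.sum_filter]
    refine Finset.sum_congr rfl fun γ _ => ?_
    split_ifs with h
    · rfl
    · simp only [f, dif_neg h]
  rw [h2, Finset.sum_subtype (p := fun x => x ∈ decomp φ (orbitRep φ o))
    (Finset.univ.filter (· ∈ decomp φ (orbitRep φ o))) (fun x => by simp) (f o)]
  refine Fintype.sum_equiv (Equiv.refl _) _ _ fun s => ?_
  simp only [f, dif_pos s.2, Equiv.refl_apply]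

end Semilocal

end Fermat.Agent.S55.G.SIndH237.UctH773
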