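import Fermat.Agent.S55.G.SIndH237.ApproxH959
import Fermat.Agent.S55.G.SIndH237.IntH63

/-!
# S55 / G / G-SIND : leaf SIND-UCT, part 5 (helper773) — structure of the integral model `RS`

With `n = ∏_{q ∈ T} q`:
* `RS_sep`, `RS_comp` : `RS T L` is `n`-adically separated and complete;
* `exists_int_approx` : every element of `RS` is congruent modulo `n` to an element of `𝒪_L`;
* `finite_RS_quot` : `RS ⧸ n RS` is finite;
* `radJ T L` : the radical of `n RS`; `radJ_pow_le` : some power of it lies in `n RS`;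
* `radJ_sep`, `radJ_comp`, `radJ_unit` : `RS` is `radJ`-adically separated and complete and
  `1 + radJ ⊆ RSˣ`.
-/

set_option autoImplicit false
set_option linter.unusedSectionVars false
set_option linter.style.haveILetI false

open scoped NumberField TensorProduct
open IsDedekindDomain

noncomputable section

namespace Fermat.Agent.S55.G.SIndH237.UctH773

open Fermat.Agent.S55.G Fermat.Agent.S55.G.SIndH237 Fermat.Agent.S55.G.SIndH237.H959
  Fermat.Agent.S55.G.SIndH237.H63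

/-! ## 1. Limits in `ℚ_p` -/

lemma padic_limit (p : ℕ) [Fact p.Prime] (r : ℝ) (hr0 : 0 ≤ r) (hr1 : r < 1) (x : ℕ → ℚ_[p])
    (hx : ∀ j, ‖x (j + 1) - x j‖ ≤ r ^ j) : ∃ y : ℚ_[p], ∀ j, ‖y - x j‖ ≤ r ^ j := by
  have h1 : ∀ j m, ‖x (j + m) - x j‖ ≤ r ^ j := by
    intro j m
    induction m with
    | zero =>
      rw [add_zero, sub_self, norm_zero]
      exact pow_nonneg hr0 j
    | succ m ih =>
      have e : x (j + (m + 1)) - x j = (x (j + m + 1) - x (j + m)) + (x (j + m) - x j) := by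
        rw [← add_assoc]; ring
      rw [e]
      refine (Padic.nonarchimedean _ _).trans (max_le ((hx (j + m)).trans ?_) ih)
      exact pow_le_pow_of_le_one hr0 hr1.le (Nat.le_add_right j m)
  have hc : CauchySeq x := by
    refine cauchySeq_of_le_geometric r 1 hr1 (fun n => ?_)
    rw [dist_comm, dist_eq_norm, one_mul]
    exact hx n
  obtain ⟨y, hy⟩ := cauchySeq_tendsto_of_complete hc
  refine ⟨y, fun j => ?_⟩
  have h3 : Filter.Tendsto (fun m => x (j + m)) Filter.atTop (nhds y) := by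
    have := hy.comp (Filter.tendsto_add_atTop_nat j)
    refine this.congr fun m => ?_
    rw [Function.comp_apply, add_comm]
  have h2 : Filter.Tendsto (fun m => ‖x (j + m) - x j‖) Filter.atTop (nhds ‖y - x j‖) :=
    (h3.sub tendsto_const_nhds).norm
  exact le_of_tendsto' h2 (fun m => h1 j m)

/-! ## 2. `ℤ_T` is `n`-adically separated and complete -/

section ZS

variable (T : Finset Nat.Primes)

lemma norm_toPi_le_of_mem {d : QS T} (hd : d ∈ ZS T) (j : ℕ) (q : T) :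
    ‖QS.toPi T ((nT T : QS T) ^ j * d) q‖ ≤ ‖((nT T : ℕ) : Qq q.1)‖ ^ j := by
  rw [toPi_mul, toPi_pow, toPi_natCast, norm_mul, norm_pow]
  exact mul_le_of_le_one_right (pow_nonneg (norm_nonneg _) _) (hd q)

lemma ZS_limit (c : ℕ → QS T)
    (hc : ∀ j, ∃ d ∈ ZS T, c (j + 1) - c j = (nT T : QS T) ^ j * d) :
    ∃ s : QS T, ∀ j, ∃ d ∈ ZS T, s - c j = (nT T : QS T) ^ j * d := by
  have h1 : ∀ q : T, ∃ y : Qq q.1, ∀ j,
      ‖y - QS.toPi T (c j) q‖ ≤ ‖((nT T : ℕ) : Qq q.1)‖ ^ j := by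
    intro q
    haveI : Fact (Nat.Prime (q.1 : ℕ)) := ⟨q.1.2⟩
    refine padic_limit (q.1 : ℕ) _ (norm_nonneg _) (norm_nT_lt_one T q)
      (fun j => QS.toPi T (c j) q) (fun j => ?_)
    obtain ⟨d, hd, hcd⟩ := hc j
    have := norm_toPi_le_of_mem T hd j q
    rw [← hcd, toPi_sub] at this
    exact this
  choose y hy using h1
  refine ⟨(QS.toPi T).symm y, fun j => ?_⟩
  obtain ⟨d, hd, hd'⟩ := exists_eq_pow_mul_of_norm_le T j ((QS.toPi T).symm y - c j) (fun q => by
    rw [toPi_sub, toPi_symm_apply]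
    exact hy q j)
  exact ⟨d, hd, hd'⟩

lemma ZS_sep (c : QS T) (hc : ∀ j, ∃ d ∈ ZS T, c = (nT T : QS T) ^ j * d) : c = 0 := by
  refine QS_ext T fun q => ?_
  have h0 : QS.toPi T (0 : QS T) q = 0 := rfl
  rw [h0, ← norm_eq_zero]
  refine le_antisymm ?_ (norm_nonneg _)
  have h1 : ∀ j, ‖QS.toPi T c q‖ ≤ ‖((nT T : ℕ) : Qq q.1)‖ ^ j := by
    intro j
    obtain ⟨d, hd, hcd⟩ := hc j
    have := norm_toPi_le_of_mem T hd j q
    rwa [← hcd] at this
  exact ge_of_tendsto'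
    (tendsto_pow_atTop_nhds_zero_of_lt_one (norm_nonneg _) (norm_nT_lt_one T q)) h1

end ZS

/-! ## 3. Coordinates on `RS` -/

section Coord

variable (T : Finset Nat.Primes) (L : Type) [Field L] [NumberField L]

local notation "ιB" => Module.Free.ChooseBasisIndex ℤ (𝓞 L)

lemma mem_RS_iff (z : AS T L) : z ∈ RS T L ↔ ∀ k : ιB, coord63 T L k z ∈ ZS T := by
  refine ⟨good63_of_mem_RS T L, fun h => ?_⟩
  rw [sum_coord63 T L z]
  refine (RS T L).sum_mem fun k _ => ?_
  rw [NumberField.integralBasis_apply]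
  exact tmul_mem_RS T L _ (h k)

lemma sum_tmul_mem_RS (d : ιB → QS T) (hd : ∀ k, d k ∈ ZS T) :
    (∑ k : ιB, (NumberField.integralBasis L k) ⊗ₜ[ℚ] d k : AS T L) ∈ RS T L := by
  refine (RS T L).sum_mem fun k _ => ?_
  rw [NumberField.integralBasis_apply]
  exact tmul_mem_RS T L _ (hd k)

lemma coord_pow_mul (k : ιB) (j : ℕ) (z : AS T L) :
    coord63 T L k (((nT T : ℕ) : AS T L) ^ j * z) = (nT T : QS T) ^ j * coord63 T L k z := by
  rw [← Nat.cast_pow, ← nsmul_eq_mul, map_nsmul, nsmul_eq_mul, Nat.cast_pow]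

lemma pow_mul_sum_tmul (j : ℕ) (d : ιB → QS T) :
    ((nT T : ℕ) : AS T L) ^ j * ∑ k : ιB, (NumberField.integralBasis L k) ⊗ₜ[ℚ] d k =
      ∑ k : ιB, (NumberField.integralBasis L k) ⊗ₜ[ℚ] ((nT T : QS T) ^ j * d k) := by
  rw [Finset.mul_sum]
  exact Finset.sum_congr rfl fun k _ => natCast_pow_mul_tmul T L j _ _

/-- `RS` is `n`-adically separated (in `L ⊗ ℚ_T`). -/
lemma AS_sep (z : AS T L) (hz : ∀ j, ∃ y ∈ RS T L, z = ((nT T : ℕ) : AS T L) ^ j * y) :
    z = 0 := by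
  have h0 : ∀ k : ιB, coord63 T L k z = 0 := by
    intro k
    refine ZS_sep T _ fun j => ?_
    obtain ⟨y, hy, hzy⟩ := hz j
    exact ⟨coord63 T L k y, good63_of_mem_RS T L hy k, by rw [hzy, coord_pow_mul]⟩
  rw [sum_coord63 T L z]
  refine Finset.sum_eq_zero fun k _ => ?_
  rw [h0 k, TensorProduct.tmul_zero]

/-- `RS` is `n`-adically complete (in `L ⊗ ℚ_T`). -/
lemma AS_comp (f : ℕ → AS T L) (hf : ∀ j, f j ∈ RS T L)
    (hstep : ∀ j, ∃ y ∈ RS T L, f (j + 1) - f j = ((nT T : ℕ) : AS T L) ^ j * y) :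
    ∃ s ∈ RS T L, ∀ j, ∃ y ∈ RS T L, s - f j = ((nT T : ℕ) : AS T L) ^ j * y := by
  have h1 : ∀ k : ιB, ∃ s : QS T, ∀ j, ∃ d ∈ ZS T,
      s - coord63 T L k (f j) = (nT T : QS T) ^ j * d := by
    intro k
    refine ZS_limit T (fun j => coord63 T L k (f j)) fun j => ?_
    obtain ⟨y, hy, hfy⟩ := hstep j
    exact ⟨coord63 T L k y, good63_of_mem_RS T L hy k, by
      rw [← map_sub, hfy, coord_pow_mul]⟩
  choose s hs using h1
  choose d hd hd' using hs
  have hsZ : ∀ k, s k ∈ ZS T := by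
    intro k
    have h2 := hd' k 0
    rw [pow_zero, one_mul] at h2
    have h3 : s k = coord63 T L k (f 0) + d k 0 := by rw [← h2]; ring
    rw [h3]
    exact (ZS T).add_mem (good63_of_mem_RS T L (hf 0) k) (hd k 0)
  refine ⟨∑ k : ιB, (NumberField.integralBasis L k) ⊗ₜ[ℚ] s k, sum_tmul_mem_RS T L s hsZ,
    fun j => ⟨∑ k : ιB, (NumberField.integralBasis L k) ⊗ₜ[ℚ] d k j,
      sum_tmul_mem_RS T L _ (fun k => hd k j), ?_⟩⟩
  rw [pow_mul_sum_tmul]
  conv_lhs => rw [sum_coord63 T L (f j)]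
  rw [← Finset.sum_sub_distrib]
  refine Finset.sum_congr rfl fun k _ => ?_
  rw [← TensorProduct.tmul_sub, hd' k j]

end Coord

end Fermat.Agent.S55.G.SIndH237.UctH773
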