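import Fermat.Agent.S55.G.SIndH237.UctH773.Struct

/-!
# S55 / G / G-SIND : leaf SIND-UCT, part 6 (helper773) — the ring `RS` and its radical

Statements about the ring `↥(RS T L)` and the ideal `radJ T L = rad (n RS)`.
-/

set_option autoImplicit false
set_option linter.unusedSectionVars false
set_option linter.style.haveILetI false

open scoped NumberField TensorProduct
open IsDedekindDomain

noncomputable section

namespace Fermat.Agent.S55.G.SIndH237.UctH773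

open Fermat.Agent.S55.G Fermat.Agent.S55.G.SIndH237 Fermat.Agent.S55.G.SIndH237.H959
  Fermat.Agent.S55.G.SIndH237.H63

variable (T : Finset Nat.Primes) (L : Type) [Field L] [NumberField L]

/-! ## 1. `n`-adic separatedness and completeness of the ring `RS` -/

lemma mem_span_pow_iff (z : RS T L) (j : ℕ) :
    z ∈ Ideal.span {((nT T : ℕ) : RS T L) ^ j} ↔
      ∃ y ∈ RS T L, (z : AS T L) = ((nT T : ℕ) : AS T L) ^ j * y := by
  rw [Ideal.mem_span_singleton']
  constructor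
  · rintro ⟨a, rfl⟩
    refine ⟨a, a.2, ?_⟩
    push_cast
    ring
  · rintro ⟨y, hy, h⟩
    refine ⟨⟨y, hy⟩, Subtype.ext ?_⟩
    push_cast
    rw [h]
    ring

lemma RS_sep (z : RS T L) (hz : ∀ j, z ∈ Ideal.span {((nT T : ℕ) : RS T L) ^ j}) : z = 0 :=
  Subtype.ext (AS_sep T L z fun j => (mem_span_pow_iff T L z j).1 (hz j))

lemma RS_comp (f : ℕ → RS T L)
    (hf : ∀ j, f (j + 1) - f j ∈ Ideal.span {((nT T : ℕ) : RS T L) ^ j}) :
    ∃ s : RS T L, ∀ j, s - f j ∈ Ideal.span {((nT T : ℕ) : RS T L) ^ j} := by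
  obtain ⟨s, hs, hs'⟩ := AS_comp T L (fun j => (f j : AS T L)) (fun j => (f j).2)
    (fun j => (mem_span_pow_iff T L _ j).1 (hf j))
  exact ⟨⟨s, hs⟩, fun j => (mem_span_pow_iff T L _ j).2 (hs' j)⟩

/-! ## 2. Approximation by algebraic integers -/

/-- `𝒪_L → L ⊗ ℚ_T`, `a ↦ a ⊗ 1`. -/
def intHom : 𝓞 L →+* AS T L :=
  ((asDiag T L : L →ₐ[ℚ] AS T L) : L →+* AS T L).comp (algebraMap (𝓞 L) L)

lemma intHom_apply (a : 𝓞 L) : intHom T L a = (a : L) ⊗ₜ[ℚ] (1 : QS T) := rfl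

lemma intHom_mem (a : 𝓞 L) : intHom T L a ∈ RS T L := tmul_one_mem_RS T L a

/-- `𝒪_L → RS`, `a ↦ a ⊗ 1`. -/
def ofInt : 𝓞 L →+* RS T L := (intHom T L).codRestrict (RS T L) (intHom_mem T L)

lemma coe_ofInt (a : 𝓞 L) : ((ofInt T L a : RS T L) : AS T L) = (a : L) ⊗ₜ[ℚ] (1 : QS T) := rfl

lemma exists_int_approx_AS {z : AS T L} (hz : z ∈ RS T L) :
    ∃ a : 𝓞 L, ∃ y ∈ RS T L, z = intHom T L a + ((nT T : ℕ) : AS T L) * y := by
  induction hz using Subring.closure_induction with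
  | mem x hx =>
    rcases hx with ⟨a, rfl⟩ | ⟨c, hc, rfl⟩
    · exact ⟨a, 0, (RS T L).zero_mem, by rw [mul_zero, add_zero]; rfl⟩
    · obtain ⟨r, hr⟩ := exists_nat_approx T c hc 1
      obtain ⟨d, hd, hd'⟩ := exists_eq_pow_mul_of_norm_le T 1 (c - (r : QS T)) (fun q => by
        rw [toPi_sub, toPi_natCast]
        exact hr q)
      refine ⟨(r : 𝓞 L), (1 : L) ⊗ₜ[ℚ] d, one_tmul_mem_RS T L hd, ?_⟩
      have h1 : c = (r : QS T) + (nT T : QS T) ^ 1 * d := by rw [← hd']; ring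
      have h2 : intHom T L (r : 𝓞 L) = (1 : L) ⊗ₜ[ℚ] (r : QS T) := by
        rw [map_natCast, Algebra.TensorProduct.natCast_def']
      have h3 := natCast_pow_mul_tmul T L 1 (1 : L) d
      rw [pow_one] at h3
      rw [h2, h3, ← TensorProduct.tmul_add, ← h1]
  | zero => exact ⟨0, 0, (RS T L).zero_mem, by rw [map_zero, mul_zero, add_zero]⟩
  | one => exact ⟨1, 0, (RS T L).zero_mem, by rw [map_one, mul_zero, add_zero]⟩
  | add x y _ _ hx hy =>
    obtain ⟨a, u, hu, rfl⟩ := hx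
    obtain ⟨a', u', hu', rfl⟩ := hy
    exact ⟨a + a', u + u', (RS T L).add_mem hu hu', by rw [map_add]; ring⟩
  | neg x _ hx =>
    obtain ⟨a, u, hu, rfl⟩ := hx
    exact ⟨-a, -u, (RS T L).neg_mem hu, by rw [map_neg]; ring⟩
  | mul x y _ _ hx hy =>
    obtain ⟨a, u, hu, rfl⟩ := hx
    obtain ⟨a', u', hu', rfl⟩ := hy
    refine ⟨a * a', intHom T L a * u' + u * intHom T L a' + ((nT T : ℕ) : AS T L) * (u * u'),
      ?_, by rw [map_mul]; ring⟩
    exact (RS T L).add_mem ((RS T L).add_mem ((RS T L).mul_mem (intHom_mem T L a) hu')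
      ((RS T L).mul_mem hu (intHom_mem T L a')))
      ((RS T L).mul_mem (natCast_mem _ _) ((RS T L).mul_mem hu hu'))

lemma exists_int_approx (z : RS T L) :
    ∃ a : 𝓞 L, z - ofInt T L a ∈ Ideal.span {((nT T : ℕ) : RS T L)} := by
  obtain ⟨a, y, hy, h⟩ := exists_int_approx_AS T L z.2
  refine ⟨a, Ideal.mem_span_singleton'.2 ⟨⟨y, hy⟩, Subtype.ext ?_⟩⟩
  push_cast
  rw [h]
  show y * ((nT T : ℕ) : AS T L) = intHom T L a + ((nT T : ℕ) : AS T L) * y - intHom T L a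
  ring

/-- `RS ⧸ n RS` is finite. -/
lemma finite_RS_quot : Finite (RS T L ⧸ Ideal.span {((nT T : ℕ) : RS T L)}) := by
  have hne : Ideal.span {((nT T : ℕ) : 𝓞 L)} ≠ ⊥ := by
    rw [Ne, Ideal.span_singleton_eq_bot]
    exact Nat.cast_ne_zero.2 (nT_ne_zero T)
  haveI : Finite (𝓞 L ⧸ Ideal.span {((nT T : ℕ) : 𝓞 L)}) :=
    Ideal.finiteQuotientOfFreeOfNeBot _ hne
  let F : (𝓞 L ⧸ Ideal.span {((nT T : ℕ) : 𝓞 L)}) →+*
      (RS T L ⧸ Ideal.span {((nT T : ℕ) : RS T L)}) :=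
    Ideal.Quotient.lift _ ((Ideal.Quotient.mk _).comp (ofInt T L)) (fun a ha => by
      obtain ⟨b, rfl⟩ := Ideal.mem_span_singleton'.1 ha
      rw [RingHom.comp_apply, Ideal.Quotient.eq_zero_iff_mem, map_mul, map_natCast]
      exact Ideal.mul_mem_left _ _ (Ideal.subset_span rfl))
  refine Finite.of_surjective F fun z => ?_
  obtain ⟨z, rfl⟩ := Ideal.Quotient.mk_surjective z
  obtain ⟨a, ha⟩ := exists_int_approx T L z
  refine ⟨Ideal.Quotient.mk _ a, ?_⟩
  rw [Ideal.Quotient.lift_mk, RingHom.comp_apply]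
  exact (Ideal.Quotient.eq.2 ha).symm

/-! ## 3. The radical of `n RS` -/

/-- The radical of `n RS` (the Jacobson radical of `RS`). -/
def radJ : Ideal (RS T L) := (Ideal.span {((nT T : ℕ) : RS T L)}).radical

lemma span_le_radJ : Ideal.span {((nT T : ℕ) : RS T L)} ≤ radJ T L := Ideal.le_radical

lemma span_pow_le_radJ_pow (j : ℕ) :
    Ideal.span {((nT T : ℕ) : RS T L) ^ j} ≤ radJ T L ^ j := by
  rw [← Ideal.span_singleton_pow]
  exact Ideal.pow_right_mono (span_le_radJ T L) j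

lemma finite_quot_radJ : Finite (RS T L ⧸ radJ T L) := by
  haveI := finite_RS_quot T L
  exact Finite.of_surjective (Ideal.Quotient.factor (span_le_radJ T L))
    (Ideal.Quotient.factor_surjective (span_le_radJ T L))

lemma reduced_quot_radJ : IsReduced (RS T L ⧸ radJ T L) :=
  (Ideal.isRadical_iff_quotient_reduced _).1 (Ideal.radical_isRadical _)

lemma radJ_pow_le : ∃ e : ℕ, radJ T L ^ e ≤ Ideal.span {((nT T : ℕ) : RS T L)} := by
  haveI := finite_RS_quot T L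
  obtain ⟨e, he⟩ := IsNoetherianRing.isNilpotent_nilradical
    (RS T L ⧸ Ideal.span {((nT T : ℕ) : RS T L)})
  refine ⟨e, fun x hx => ?_⟩
  have h1 : (radJ T L).map (Ideal.Quotient.mk (Ideal.span {((nT T : ℕ) : RS T L)})) ≤
      nilradical (RS T L ⧸ Ideal.span {((nT T : ℕ) : RS T L)}) := by
    rw [Ideal.map_le_iff_le_comap]
    intro y hy
    obtain ⟨k, hk⟩ := hy
    rw [Ideal.mem_comap, mem_nilradical]
    refine ⟨k, ?_⟩
    rw [← map_pow]
    exact Ideal.Quotient.eq_zero_iff_mem.2 hk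
  have h2 : Ideal.Quotient.mk (Ideal.span {((nT T : ℕ) : RS T L)}) x ∈
      ((radJ T L) ^ e).map (Ideal.Quotient.mk (Ideal.span {((nT T : ℕ) : RS T L)})) :=
    Ideal.mem_map_of_mem _ hx
  rw [Ideal.map_pow] at h2
  have h3 := Ideal.pow_right_mono h1 e h2
  rw [he] at h3
  exact Ideal.Quotient.eq_zero_iff_mem.1 h3

lemma radJ_unit (x : RS T L) (hx : x ∈ radJ T L) : IsUnit (1 + x) := by
  obtain ⟨k, hk⟩ := hx
  obtain ⟨a, ha⟩ := Ideal.mem_span_singleton'.1 hk
  have h1 : (1 : RS T L) - (-x) ∣ 1 ^ k - (-x) ^ k := sub_dvd_pow_sub_pow 1 (-x) k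
  have h2 : (1 : RS T L) ^ k - (-x) ^ k = 1 + ((nT T : ℕ) : RS T L) * (-((-1) ^ k * a)) := by
    rw [one_pow, neg_pow, ← ha]
    ring
  rw [sub_neg_eq_add, h2] at h1
  exact isUnit_of_dvd_unit h1 (isUnit_one_add_nT_mul T L _)

lemma radJ_sep (x : RS T L) (hx : ∀ j, x ∈ radJ T L ^ j) : x = 0 := by
  obtain ⟨e, he⟩ := radJ_pow_le T L
  refine RS_sep T L x fun j => ?_
  rw [← Ideal.span_singleton_pow]
  have h1 := hx (e * j)
  rw [pow_mul] at h1
  exact Ideal.pow_right_mono he j h1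

lemma radJ_comp (f : ℕ → RS T L) (hf : ∀ j, f (j + 1) - f j ∈ radJ T L ^ j) :
    ∃ s : RS T L, ∀ j, s - f j ∈ radJ T L ^ j := by
  obtain ⟨e, he⟩ := radJ_pow_le T L
  have tele : ∀ j m, f (j + m) - f j ∈ radJ T L ^ j := by
    intro j m
    induction m with
    | zero =>
      rw [add_zero, sub_self]
      exact (radJ T L ^ j).zero_mem
    | succ m ih =>
      have e1 : f (j + (m + 1)) - f j = (f (j + m + 1) - f (j + m)) + (f (j + m) - f j) := by
        rw [← add_assoc]; ring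
      rw [e1]
      exact (radJ T L ^ j).add_mem
        (Ideal.pow_le_pow_right (Nat.le_add_right j m) (hf (j + m))) ih
  have hE : radJ T L ^ (e + 1) ≤ Ideal.span {((nT T : ℕ) : RS T L)} :=
    (Ideal.pow_le_pow_right (Nat.le_succ e)).trans he
  obtain ⟨s, hs⟩ := RS_comp T L (fun j => f ((e + 1) * j)) (fun j => by
    rw [← Ideal.span_singleton_pow]
    have h1 : (e + 1) * (j + 1) = (e + 1) * j + (e + 1) := by ring
    have h2 := tele ((e + 1) * j) (e + 1)
    rw [pow_mul] at h2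
    rw [h1]
    exact Ideal.pow_right_mono hE j h2)
  refine ⟨s, fun j => ?_⟩
  have h3 : s - f j = (s - f ((e + 1) * j)) + (f (j + e * j) - f j) := by
    have : (e + 1) * j = j + e * j := by ring
    rw [this]; ring
  rw [h3]
  exact (radJ T L ^ j).add_mem (span_pow_le_radJ_pow T L j (hs j)) (tele j (e * j))

end Fermat.Agent.S55.G.SIndH237.UctH773
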